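import Fermat.Agent.MR.Lift.Tr.Abs
import Fermat.Agent.MR.Level
import Fermat.Agent.GAL.Igusa.Tower
import Fermat.Agent.GAL.Tors.Desc.IsFF

/-!
# MR / Lift / Tr : descent of a holomorphic differential from the level `M` to the level `M' ∣ M` by the trace
-/

set_option autoImplicit false
set_option linter.style.haveILetI false

noncomputable section

namespace Fermat.Agent.MR.Lift

open AlgebraicCurve ModularCurve Fermat.Agent.S24 Fermat.Agent.GAL Fermat.Agent.GAL.RED
  Fermat.Agent.DR Fermat.Agent.DR.Gal Fermat.Agent.Lib.RR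

variable (A : ValuationSubring Kbar) {M' M : ℕ} [NeZero M'] [NeZero M] (h : M' ∣ M)
  (hM' : ((M' : ℕ) : kk A) ≠ 0) (hM : ((M : ℕ) : kk A) ≠ 0)

theorem lvl_mem_RM_O {y : FN M'} (hy : y ∈ (Conc.RM A M' hM').O) :
    lvl h y ∈ (Conc.RM A M hM).O := by
  rw [Conc.mem_RM_O_iff] at hy ⊢
  rwa [coe_lvl]

theorem coe_RM_red_lvl (y : FN M') (hy : y ∈ (Conc.RM A M' hM').O) :
    (((Conc.RM A M hM).red (lvl h y) : Igusa.E (kk A) M) : LaurentSeries (kk A)) =
      (((Conc.RM A M' hM').red y : Igusa.E (kk A) M') : LaurentSeries (kk A)) := by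
  have h1 : (y : LaurentSeries Kbar) ∈ Gauss.gRing A := (Conc.mem_RM_O_iff A M' hM' y).1 hy
  have h2 : ((lvl h y : FN M) : LaurentSeries Kbar) ∈ Gauss.gRing A := by
    rw [coe_lvl]; exact h1
  rw [Conc.coe_RM_red A M hM _ h2, Conc.coe_RM_red A M' hM' _ h1]
  exact congrArg (Gauss.gRes A) (Subtype.ext (coe_lvl h y))

omit A hM' hM in
theorem finrank_tower_eq (k : Type) [Field k] (hM : ((M : ℕ) : k) ≠ 0) :
    letI := algebraAlong (lvl h)
    letI := Igusa.towerAlgebra k h
    Module.finrank (Igusa.E k M') (Igusa.E k M) = Module.finrank (FN M') (FN M) := by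
  letI := algebraAlong (lvl h)
  letI := Igusa.towerAlgebra k h
  have h1 := (Igusa.tower_spec k h hM).2.2.2.2
  have h2 := finrankAlong_lvl_mul h
  have hpos := DegreeAlpha.dedekindPsi_pos M'
  have h3 : finrankAlong Kbar (lvl h) = Module.finrank (FN M') (FN M) := rfl
  rw [h3, ← h1] at h2
  exact (Nat.eq_of_mul_eq_mul_right hpos h2).symm

omit A hM' hM in
/-- **Descent by the trace**, generic residue field. -/
theorem exists_descend_aux (k : Type) [Field k] (hM : ((M : ℕ) : k) ≠ 0)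
    (R' : RedData Kbar (FN M') k (Igusa.E k M')) (R : RedData Kbar (FN M) k (Igusa.E k M))
    (hmem : ∀ y : FN M', y ∈ R'.O → lvl h y ∈ R.O)
    (hred : ∀ y : FN M', y ∈ R'.O →
      ((R.red (lvl h y) : Igusa.E k M) : LaurentSeries k) = ((R'.red y : Igusa.E k M') : LaurentSeries k))
    (hdeg : ((finrankAlong Kbar (lvl h) : ℕ) : k) ≠ 0) (f : FN M)
    (hfO : f ∈ R.O) (hfW : f ∈ LW Kbar (jF M)) (y : Igusa.E k M')
    (hy : ((R.red f : Igusa.E k M) : LaurentSeries k) = (y : LaurentSeries k)) :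
    ∃ f' : FN M', f' ∈ R'.O ∧ f' ∈ LW Kbar (jF M') ∧ R'.red f' = y := by
  letI := algebraAlong (lvl h)
  letI := Igusa.towerAlgebra k h
  haveI : CharZero (FN M') := charZero_of_injective_algebraMap (algebraMap Kbar (FN M')).injective
  haveI : FiniteDimensional (FN M') (FN M) := finiteAlong_lvl h
  have hext : Ext R' R := ⟨hmem, fun y hy => Subtype.ext (hred y hy)⟩
  have hj : algebraMap (FN M') (FN M) (jF M') = jF M := lvl_jF h
  exact hext.exists_descend (isScalarTower_along (lvl h)) (finiteAlong_lvl h)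
    Algebra.IsAlgebraic.isSeparable_of_perfectField (Desc.isFF_FF_Kbar M') (Desc.isFF_FF_Kbar M)
    (Igusa.tower_spec k h hM).2.2.1 (finrank_tower_eq h k hM) hdeg (jF M') hfO
    (by rw [hj]; exact hfW) y (Subtype.ext hy)

/-- **Descent by the trace.** -/
theorem exists_descend (hdeg : ((finrankAlong Kbar (lvl h) : ℕ) : kk A) ≠ 0) (f : FN M)
    (hfO : f ∈ (Conc.RM A M hM).O) (hfW : f ∈ LW Kbar (jF M)) (y : Igusa.E (kk A) M')
    (hy : (((Conc.RM A M hM).red f : Igusa.E (kk A) M) : LaurentSeries (kk A)) =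
      (y : LaurentSeries (kk A))) :
    ∃ f' : FN M', f' ∈ (Conc.RM A M' hM').O ∧ f' ∈ LW Kbar (jF M') ∧
      (Conc.RM A M' hM').red f' = y :=
  exists_descend_aux h (kk A) hM (Conc.RM A M' hM') (Conc.RM A M hM)
    (fun _ hy => lvl_mem_RM_O A h hM' hM hy) (fun y hy => coe_RM_red_lvl A h hM' hM y hy)
    hdeg f hfO hfW y hy

end Fermat.Agent.MR.Lift
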