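import Fermat.Agent.S23
import Fermat.Agent.S49.Lattice
import Fermat.Agent.S24.DefsB
import Fermat.Agent.GAL.Gauss.RatJ
import Fermat.Agent.S36.Norm.Coord

/-!
# MR / Lift / Tr : integrality of the `q`-expansion of a cusp form which lies in the Gauss ring

`gRing A` consists of quotients, so `x ∈ gRing A` does not say that the coefficients of `x` are in `A`.
For the `q`-expansion of a cusp form it does: by the integral structure (S23) the coefficients are `ℤ`-combinations of
finitely many of them, hence there is a coefficient of maximal absolute value.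
-/

set_option autoImplicit false

noncomputable section

namespace Fermat.Agent.MR.Lift

open ModularFormClass CongruenceSubgroup Fermat.Agent.S24 Fermat.Agent.GAL.Gauss

/-- the coefficients of a cusp form with coefficients in `Kbar` have a maximum for every valuation ring. -/
theorem exists_max_coeff (A : ValuationSubring Kbar) (N : ℕ) [NeZero N]
    (G : CuspForm (Gamma0 N) 2) (c : ℕ → Kbar) (hc : ∀ n, qCoeff G n = iota (c n)) :
    (∀ n, c n = 0) ∨ ∃ t₀, c t₀ ≠ 0 ∧ ∀ n, c n / c t₀ ∈ A := by
  classical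
  have hG : G ∈ Submodule.span ℂ ((CuspForm.intLattice N 2 :
      Submodule ℤ (CuspForm (Gamma0 N) 2)) : Set (CuspForm (Gamma0 N) 2)) := by
    have h := Fermat.Agent.S23.result N
    unfold CuspForm.HasIntegralStructure at h
    rw [h]
    exact Submodule.mem_top
  obtain ⟨r, z, g, hsum⟩ := Submodule.mem_span_set'.1 hG
  choose a ha using fun i => (Fermat.Agent.S49.mem_intLattice_iff (g i).1).1 (g i).2
  let γ : ℕ → (Fin r → ℤ) := fun n i => a i n
  let Φ : (Fin r → ℤ) →ₗ[ℤ] ℂ :=
    { toFun := fun v => ∑ i, z i * (v i : ℂ)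
      map_add' := fun v w => by
        simp only [Pi.add_apply, Int.cast_add, mul_add, Finset.sum_add_distrib]
      map_smul' := fun m v => by
        simp only [Pi.smul_apply, smul_eq_mul, Int.cast_mul, RingHom.id_apply, zsmul_eq_mul,
          Finset.mul_sum]
        refine Finset.sum_congr rfl fun i _ => ?_
        ring }
  have hqsum : ∀ (s : Finset (Fin r)) (n : ℕ),
      qCoeff (∑ i ∈ s, z i • (g i : CuspForm (Gamma0 N) 2) : CuspForm (Gamma0 N) 2) n =
        ∑ i ∈ s, z i * qCoeff (g i : CuspForm (Gamma0 N) 2) n := by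
    intro s n
    induction s using Finset.induction_on with
    | empty =>
      simp only [Finset.sum_empty]
      have := Fermat.Agent.S49.qc_smul (N := N) 0 0 n
      simpa using this
    | insert i s hi ih =>
      rw [Finset.sum_insert hi, Finset.sum_insert hi, Fermat.Agent.S49.qc_add,
        Fermat.Agent.S49.qc_smul, ih]
  have hΦ : ∀ n, Φ (γ n) = iota (c n) := by
    intro n
    rw [← hc n, ← hsum, hqsum]
    show ∑ i, z i * ((γ n i : ℤ) : ℂ) = _
    exact Finset.sum_congr rfl fun i _ => by rw [ha i n]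
  have hfg : (Submodule.span ℤ (Set.range γ)).FG := IsNoetherian.noetherian _
  obtain ⟨s', hs', hspan⟩ := (Submodule.fg_span_iff_fg_span_finset_subset (Set.range γ)).1 hfg
  have hmem : ∀ n, γ n ∈ Submodule.span ℤ (s' : Set (Fin r → ℤ)) := by
    intro n
    rw [← hspan]
    exact Submodule.subset_span ⟨n, rfl⟩
  choose! idx hidx using fun v (hv : v ∈ s') => hs' hv
  by_cases hall : ∀ v ∈ s', c (idx v) = 0
  · left
    intro n
    have h1 : Submodule.span ℤ (s' : Set (Fin r → ℤ)) ≤ LinearMap.ker Φ := by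
      rw [Submodule.span_le]
      intro v hv
      rw [SetLike.mem_coe, LinearMap.mem_ker, ← hidx v hv, hΦ, hall v hv, map_zero]
    have h2 := h1 (hmem n)
    rw [LinearMap.mem_ker, hΦ] at h2
    exact (map_eq_zero iota).1 h2
  · right
    push Not at hall
    obtain ⟨v₁, hv₁, hne⟩ := hall
    obtain ⟨p₀, hp₀, hmax⟩ := Fermat.Agent.S36.Norm.exists_max A
      (fun v : ↥s' => c (idx v)) ⟨⟨v₁, hv₁⟩, hne⟩
    refine ⟨idx p₀, hp₀, fun n => ?_⟩
    let U : Submodule ℤ (Fin r → ℤ) :=
      { carrier := {v | ∃ b ∈ A, Φ v = iota (b * c (idx p₀))}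
        zero_mem' := ⟨0, A.zero_mem, by rw [map_zero, zero_mul, map_zero]⟩
        add_mem' := by
          rintro v w ⟨b, hb, hv⟩ ⟨b', hb', hw⟩
          exact ⟨b + b', A.add_mem _ _ hb hb', by rw [map_add, hv, hw, add_mul, map_add]⟩
        smul_mem' := by
          rintro m v ⟨b, hb, hv⟩
          refine ⟨(m : Kbar) * b, A.mul_mem _ _ (intCast_mem A m) hb, ?_⟩
          rw [map_smul, hv, zsmul_eq_mul, mul_assoc, map_mul iota (m : Kbar), map_intCast] }
    have h1 : Submodule.span ℤ (s' : Set (Fin r → ℤ)) ≤ U := by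
      rw [Submodule.span_le]
      intro v hv
      refine ⟨c (idx v) / c (idx p₀), hmax ⟨v, hv⟩, ?_⟩
      rw [div_mul_cancel₀ _ hp₀, ← hΦ, hidx v hv]
    obtain ⟨b, hb, hbn⟩ := h1 (hmem n)
    rw [hΦ] at hbn
    have := iota.injective hbn
    rw [this, mul_div_cancel_right₀ _ hp₀]
    exact hb

variable {K : Type*} [Field K] (A : ValuationSubring K)

/-- the series with coefficients `x_n / a`, when they are all in `A`. -/
def divSeries (x : LaurentSeries K) (a : K) (h : ∀ n, x.coeff n / a ∈ A) : LaurentSeries ↥A where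
  coeff n := ⟨x.coeff n / a, h n⟩
  isPWO_support' := x.isPWO_support.mono fun n hn => by
    simp only [Function.mem_support, ne_eq, HahnSeries.mem_support] at hn ⊢
    intro h0
    apply hn
    apply Subtype.ext
    show x.coeff n / a = 0
    rw [h0, zero_div]

theorem C_mul_iA_divSeries (x : LaurentSeries K) (a : K) (ha : a ≠ 0)
    (h : ∀ n, x.coeff n / a ∈ A) : HahnSeries.C a * iA A (divSeries A x a h) = x := by
  ext n
  rw [HahnSeries.C_mul_eq_smul, HahnSeries.coeff_smul, iA_coeff]
  show a • (x.coeff n / a) = _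
  rw [smul_eq_mul, mul_div_cancel₀ _ ha]

/-- A series of the Gauss ring with a coefficient of maximal absolute value has its coefficients in `A`. -/
theorem exists_eq_iA_of_max (x : LaurentSeries K) (hx : x ∈ gRing A) (t₀ : ℤ)
    (h0 : x.coeff t₀ ≠ 0) (h : ∀ n, x.coeff n / x.coeff t₀ ∈ A) :
    ∃ z : LaurentSeries ↥A, x = iA A z := by
  set y := divSeries A x (x.coeff t₀) h with hy
  have hxy := C_mul_iA_divSeries A x (x.coeff t₀) h0 h
  have hpy : pA A y ≠ 0 := by
    intro h1
    have h2 := congrArg (fun s => HahnSeries.coeff s t₀) h1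
    simp only [pA_coeff, HahnSeries.coeff_zero] at h2
    have h3 : y.coeff t₀ = 1 := Subtype.ext (div_self h0)
    rw [h3, map_one] at h2
    exact one_ne_zero h2
  have hu : gRes A ⟨iA A y, iA_mem_gRing A y⟩ ≠ 0 := by rwa [gRes_iA]
  have hmem : x.coeff t₀ ∈ A := by
    rw [← C_mul_unit_mem_iff A (x.coeff t₀) ⟨iA A y, iA_mem_gRing A y⟩ hu]
    show HahnSeries.C (x.coeff t₀) * iA A y ∈ gRing A
    rw [hxy]
    exact hx
  refine ⟨HahnSeries.C (⟨x.coeff t₀, hmem⟩ : ↥A) * y, ?_⟩
  have hC : iA A (HahnSeries.C (⟨x.coeff t₀, hmem⟩ : ↥A)) = HahnSeries.C (x.coeff t₀) := by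
    rw [iA, HahnSeries.C_apply, HahnSeries.C_apply, ModularCurve.coeffMap_single]
    rfl
  rw [map_mul, hC]
  exact hxy.symm

end Fermat.Agent.MR.Lift
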