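import Fermat.Agent.MR.Lift.Contract
import Fermat.Agent.GAL.FF.RH.LocalTrace
import Fermat.Agent.S36.Norm.Coord

/-!
# MR / Lift / Tr : abstract lemmas on traces

* `trace_mem_LW`   : the trace of a holomorphic differential is holomorphic.
* `red_trace`      : the trace commutes with the reduction when the residue degree is the degree.
-/

set_option autoImplicit false

noncomputable section

namespace Fermat.Agent.MR.Lift

open AlgebraicCurve Fermat.Agent.Lib.RR Fermat.Agent.GAL Fermat.Agent.GAL.RED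

section LW

variable {k F F' : Type*} [Field k] [IsAlgClosed k] [Field F] [Field F'] [Algebra k F]
  [Algebra k F'] [Algebra F F'] [IsScalarTower k F F'] [FiniteDimensional F F']
  [Algebra.IsSeparable F F'] [IsFF k F] [IsFF k F']

/-- The trace of a holomorphic differential is holomorphic. -/
theorem trace_mem_LW (x : F) (z : F') (hz : z ∈ LW k (algebraMap F F' x)) :
    Algebra.trace F F' z ∈ LW k x := by
  rcases hz with rfl | hz
  · left
    rw [map_zero]
  by_cases h0 : Algebra.trace F F' z = 0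
  · exact Or.inl h0
  right
  intro v
  constructor
  · intro c hc
    have h := FF.ord_trace_ge v z (1 - v.ord (x - algebraMap k F c)) (by
      intro w hw
      right
      have hw' : w.restrict F = v := Place.mem_fiber.1 hw
      have h1 := w.ord_restrict (F := F) (x - algebraMap k F c)
      rw [hw', map_sub, ← IsScalarTower.algebraMap_apply] at h1
      have he : (0 : ℤ) < (w.ramificationIndex F : ℤ) := by
        exact_mod_cast w.ramificationIndex_pos (F := F)
      have h2 := (hz w).1 c (by rw [h1]; exact mul_pos he hc)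
      rw [h1] at h2
      linarith)
    have := h.resolve_left h0
    linarith
  · intro hx
    have h := FF.ord_trace_ge v z (1 - v.ord x) (by
      intro w hw
      right
      have hw' : w.restrict F = v := Place.mem_fiber.1 hw
      have h1 := w.ord_restrict (F := F) x
      rw [hw'] at h1
      have he : (0 : ℤ) < (w.ramificationIndex F : ℤ) := by
        exact_mod_cast w.ramificationIndex_pos (F := F)
      have h2 := (hz w).2 (by rw [h1]; exact mul_neg_of_pos_of_neg he hx)
      rw [h1] at h2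
      linarith)
    have := h.resolve_left h0
    linarith

theorem smul_mem_LW {K E : Type*} [Field K] [Field E] [Algebra K E] (x : E) (a : K) {f : E}
    (hf : f ∈ LW K x) : a • f ∈ LW K x := by
  rcases hf with rfl | hf
  · left
    rw [smul_zero]
  by_cases ha : a = 0
  · left
    rw [ha, zero_smul]
  by_cases hf0 : f = 0
  · left
    rw [hf0, smul_zero]
  right
  intro Q
  have h1 : Q.ord (a • f) = Q.ord f := by
    rw [Algebra.smul_def, Q.ord_mul ((map_ne_zero _).2 ha) hf0, Fermat.Agent.S24.ord_algebraMap,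
      zero_add]
  rw [h1]
  exact hf Q

end LW

section Red

variable {K F F' k Fb Fb' : Type*} [Field K] [Field F] [Field F'] [Algebra K F] [Algebra K F']
  [Field k] [Field Fb] [Field Fb'] [Algebra k Fb] [Algebra k Fb'] [Algebra F F'] [Algebra Fb Fb']

/-- `R'` (on `F'`) extends `R` (on `F`). -/
structure Ext (R : RedData K F k Fb) (R' : RedData K F' k Fb') : Prop where
  mem : ∀ y : F, y ∈ R.O → algebraMap F F' y ∈ R'.O
  red : ∀ y : F, y ∈ R.O → R'.red (algebraMap F F' y) = algebraMap Fb Fb' (R.red y)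

variable {R : RedData K F k Fb} {R' : RedData K F' k Fb'}

theorem Ext.red_sum (h : Ext R R') {n : ℕ} {β : Module.Basis (Fin n) Fb Fb'} {b : Fin n → F'}
    (hb : ∀ i, b i ∈ R'.O) (hβ : ∀ i, R'.red (b i) = β i) (a : Fin n → F)
    (ha : ∀ i, a i ∈ R.O) :
    ∑ i, a i • b i ∈ R'.O ∧ R'.red (∑ i, a i • b i) = ∑ i, R.red (a i) • β i := by
  have h2 : ∀ i, a i • b i ∈ R'.O := fun i => by
    rw [Algebra.smul_def]
    exact R'.O.mul_mem _ _ (h.mem _ (ha i)) (hb i)
  refine ⟨sum_mem fun i _ => h2 i, ?_⟩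
  rw [R'.red_sum _ _ fun i _ => h2 i]
  refine Finset.sum_congr rfl fun i _ => ?_
  rw [Algebra.smul_def, R'.red_mul (h.mem _ (ha i)) (hb i), h.red _ (ha i), hβ, Algebra.smul_def]

theorem Ext.aux (h : Ext R R') {n : ℕ} {β : Module.Basis (Fin n) Fb Fb'} {b : Fin n → F'}
    (hb : ∀ i, b i ∈ R'.O) (hβ : ∀ i, R'.red (b i) = β i) (a : Fin n → F)
    (ha : ∀ i, a i ∈ R.O) (i₀ : Fin n) (h1 : a i₀ = 1) : R'.red (∑ i, a i • b i) ≠ 0 := by
  rw [(h.red_sum hb hβ a ha).2]
  intro h0
  have h2 := Fintype.linearIndependent_iff.mp β.linearIndependent _ h0 i₀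
  rw [h1, R.red_one] at h2
  exact one_ne_zero h2

theorem Ext.linearIndependent (h : Ext R R') {n : ℕ} {β : Module.Basis (Fin n) Fb Fb'}
    {b : Fin n → F'} (hb : ∀ i, b i ∈ R'.O) (hβ : ∀ i, R'.red (b i) = β i) :
    LinearIndependent F b := by
  rw [Fintype.linearIndependent_iff]
  intro a hsum
  by_contra hcon
  push Not at hcon
  obtain ⟨p₀, hp₀, hmax⟩ := S36.Norm.exists_max R.O a hcon
  apply h.aux hb hβ (fun p => a p / a p₀) hmax p₀ (div_self hp₀)
  have h1 : ∑ p, (a p / a p₀) • b p = (a p₀)⁻¹ • ∑ p, a p • b p := by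
    rw [Finset.smul_sum]
    refine Finset.sum_congr rfl fun p _ => ?_
    rw [smul_smul, div_eq_inv_mul]
  rw [h1, hsum, smul_zero, RedData.red_zero]

theorem Ext.coord_mem (h : Ext R R') {n : ℕ} {β : Module.Basis (Fin n) Fb Fb'}
    {b : Fin n → F'} (hb : ∀ i, b i ∈ R'.O) (hβ : ∀ i, R'.red (b i) = β i) (a : Fin n → F)
    (hz : ∑ p, a p • b p ∈ R'.O) (p : Fin n) : a p ∈ R.O := by
  by_contra hp
  have hp0 : a p ≠ 0 := fun h0 => hp (h0 ▸ R.O.zero_mem)
  obtain ⟨p₀, hp₀, hmax⟩ := S36.Norm.exists_max R.O a ⟨p, hp0⟩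
  have hnot : a p₀ ∉ R.O := by
    intro hmem
    apply hp
    have := R.O.mul_mem _ _ (hmax p) hmem
    rwa [div_mul_cancel₀ _ hp₀] at this
  have hinv : (a p₀)⁻¹ ∈ R.O := (R.O.mem_or_inv_mem (a p₀)).resolve_left hnot
  have hred : R.red (a p₀)⁻¹ = 0 := by
    by_contra h1
    have := (R.red_ne_zero_iff.mp h1).2.2
    rw [inv_inv] at this
    exact hnot this
  apply h.aux hb hβ (fun p => a p / a p₀) hmax p₀ (div_self hp₀)
  have h1 : ∑ p, (a p / a p₀) • b p = (a p₀)⁻¹ • ∑ p, a p • b p := by
    rw [Finset.smul_sum]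
    refine Finset.sum_congr rfl fun p _ => ?_
    rw [smul_smul, div_eq_inv_mul]
  rw [h1, Algebra.smul_def, R'.red_mul (h.mem _ hinv) hz, h.red _ hinv, hred, map_zero, zero_mul]

/-- **The trace commutes with the reduction** when the residue degree is the degree. -/
theorem Ext.red_trace (h : Ext R R') [FiniteDimensional F F'] [FiniteDimensional Fb Fb']
    (hdeg : Module.finrank Fb Fb' = Module.finrank F F') {z : F'} (hz : z ∈ R'.O) :
    Algebra.trace F F' z ∈ R.O ∧
      R.red (Algebra.trace F F' z) = Algebra.trace Fb Fb' (R'.red z) := by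
  classical
  let β : Module.Basis (Fin (Module.finrank Fb Fb')) Fb Fb' := Module.finBasis Fb Fb'
  have hlift : ∀ i, ∃ y : F', y ∈ R'.O ∧ R'.red y = β i := by
    intro i
    obtain ⟨y, hy⟩ := R'.res_surjective (β i)
    exact ⟨y, y.2, by rw [R'.red_of_mem y.2]; exact hy⟩
  choose b hb hβ using hlift
  have hli : LinearIndependent F b := h.linearIndependent hb hβ
  have hcard : Fintype.card (Fin (Module.finrank Fb Fb')) = Module.finrank F F' := by
    rw [Fintype.card_fin, hdeg]
  have hne : Nonempty (Fin (Module.finrank Fb Fb')) := by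
    rw [← Fintype.card_pos_iff, hcard]
    exact Module.finrank_pos
  let B : Module.Basis (Fin (Module.finrank Fb Fb')) F F' :=
    basisOfLinearIndependentOfCardEqFinrank hli hcard
  have hB : ∀ p, B p = b p := fun p => by simp [B]
  let m : Matrix (Fin (Module.finrank Fb Fb')) (Fin (Module.finrank Fb Fb')) F :=
    Algebra.leftMulMatrix B z
  have hsum : ∀ p, ∑ p', m p' p • b p' = z * b p := by
    intro p
    have := B.sum_repr (z * B p)
    simp only [hB] at this
    rw [← this]
    refine Finset.sum_congr rfl fun p' _ => ?_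
    rw [show m p' p = B.repr (z * B p) p' from Algebra.leftMulMatrix_eq_repr_mul B z p' p, hB]
  have hmO : ∀ p' p, m p' p ∈ R.O := fun p' p =>
    h.coord_mem hb hβ (fun p' => m p' p) (by rw [hsum]; exact R'.O.mul_mem _ _ hz (hb p)) p'
  have hred : ∀ p' p, R.red (m p' p) = Algebra.leftMulMatrix β (R'.red z) p' p := by
    intro p' p
    have h1 := (h.red_sum hb hβ (fun p' => m p' p) (fun p' => hmO p' p)).2
    rw [hsum, R'.red_mul hz (hb p), hβ] at h1
    rw [Algebra.leftMulMatrix_eq_repr_mul, h1]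
    simp only [map_sum, map_smul, Module.Basis.repr_self, Finsupp.coe_finsetSum,
      Finset.sum_apply, Finsupp.coe_smul, Pi.smul_apply, smul_eq_mul,
      Finsupp.single_apply, mul_ite, mul_one, mul_zero, Finset.sum_ite_eq',
      Finset.mem_univ, if_true]
  have htr : Algebra.trace F F' z = ∑ p, m p p := by
    rw [Algebra.trace_eq_matrix_trace B]
    rfl
  rw [htr]
  refine ⟨sum_mem fun p _ => hmO p p, ?_⟩
  rw [R.red_sum _ _ fun p _ => hmO p p, Algebra.trace_eq_matrix_trace β]
  exact Finset.sum_congr rfl fun p _ => hred p p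

/-- Descent by the trace (reduction part). -/
theorem Ext.red_smul_trace (h : Ext R R') [FiniteDimensional F F'] [FiniteDimensional Fb Fb']
    (hdeg : Module.finrank Fb Fb' = Module.finrank F F')
    (he : ((Module.finrank F F' : ℕ) : k) ≠ 0) {z : F'} (hz : z ∈ R'.O) (y : Fb)
    (hy : R'.red z = algebraMap Fb Fb' y) :
    ((Module.finrank F F' : ℕ) : K)⁻¹ • Algebra.trace F F' z ∈ R.O ∧
      R.red (((Module.finrank F F' : ℕ) : K)⁻¹ • Algebra.trace F F' z) = y := by
  obtain ⟨htO, htr⟩ := h.red_trace hdeg hz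
  rw [hy, Algebra.trace_algebraMap, hdeg] at htr
  have he0 : R.redA ((Module.finrank F F' : ℕ) : K) ≠ 0 := by
    rw [R.redA_natCast]
    exact he
  obtain ⟨-, -, heinv⟩ := R.redA_ne_zero_iff.1 he0
  refine ⟨R.smul_mem heinv htO, ?_⟩
  rw [R.red_smul heinv htO, htr, R.redA_inv, R.redA_natCast, ← Nat.cast_smul_eq_nsmul k,
    smul_smul, inv_mul_cancel₀ he, one_smul]

end Red

section Both

variable {K F F' k Fb Fb' : Type*} [Field K] [IsAlgClosed K] [Field F] [Field F'] [Algebra K F]
  [Algebra K F'] [Field k] [Field Fb] [Field Fb'] [Algebra k Fb] [Algebra k Fb'] [Algebra F F']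
  [Algebra Fb Fb'] {R : RedData K F k Fb} {R' : RedData K F' k Fb'}

/-- **Descent by the trace**, abstract form (all the side conditions are explicit arguments). -/
theorem Ext.exists_descend (h : Ext R R') (h1 : IsScalarTower K F F')
    (h2 : FiniteDimensional F F') (h3 : Algebra.IsSeparable F F') (h4 : IsFF K F)
    (h5 : IsFF K F') (h6 : FiniteDimensional Fb Fb')
    (hdeg : Module.finrank Fb Fb' = Module.finrank F F')
    (he : ((Module.finrank F F' : ℕ) : k) ≠ 0) (x : F) {z : F'} (hz : z ∈ R'.O)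
    (hzW : z ∈ LW K (algebraMap F F' x)) (y : Fb) (hy : R'.red z = algebraMap Fb Fb' y) :
    ∃ f : F, f ∈ R.O ∧ f ∈ LW K x ∧ R.red f = y := by
  obtain ⟨hO, hr⟩ := h.red_smul_trace hdeg he hz y hy
  exact ⟨_, hO, smul_mem_LW x _ (trace_mem_LW x z hzW), hr⟩

end Both

end Fermat.Agent.MR.Lift
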